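/-
S18 / wave 4 (helper79): the Mathlib-only half of leaf C2 (`card_le_of_approx`).

ABSTRACT SPECIAL-FIBRE COUNT.  `k ⊆ L ⊆ E` fields, `E / L` finite of degree `μ`.  Given a set `Vs`
of valuation subrings of `L` ("finite places"), a valuation subring `Voo` ("the place at
infinity") with uniformiser `s` and residue field `k`, such that an element of `L` lying in every
finite `V` and vanishing at infinity is `0`:  a `k`-linearly independent family `f` of elements of
`E` that are integral over every finite `V` and such that `s ^ n * f i` is integral over `Voo`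
has at most `(n + 1) μ` members.

No Riemann–Roch, no finiteness of integral closures, no separability: norm + filtration.
-/
import Mathlib

set_option autoImplicit false

open Module

namespace Fermat.Agent.S18.H79

section Count

variable {k L E : Type*} [Field k] [Field L] [Field E] [Algebra k L] [Algebra L E] [Algebra k E]
  [IsScalarTower k L E]

/-- Elements of a valuation subring of `L` are integral over it, inside `E`. -/
theorem isIntegral_algebraMap_of_mem (V : ValuationSubring L) {a : L} (ha : a ∈ V) :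
    IsIntegral V (algebraMap L E a) :=
  isIntegral_algebraMap (R := V) (A := E) (x := ⟨a, ha⟩)

/-- Scalars from `k` preserve integrality over a valuation subring containing `k`. -/
theorem isIntegral_smul_of_mem (V : ValuationSubring L) (hk : ∀ c : k, algebraMap k L c ∈ V)
    (c : k) {y : E} (hy : IsIntegral V y) : IsIntegral V (c • y) := by
  rw [Algebra.smul_def, IsScalarTower.algebraMap_apply k L E]
  exact (isIntegral_algebraMap_of_mem V (hk c)).mul hy

/-- Finite `k`-linear combinations preserve integrality. -/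
theorem isIntegral_sum_smul (V : ValuationSubring L) (hk : ∀ c : k, algebraMap k L c ∈ V)
    {d : ℕ} (c : Fin d → k) (f : Fin d → E) (hf : ∀ i, IsIntegral V (f i)) :
    IsIntegral V (∑ i, c i • f i) :=
  IsIntegral.sum _ fun i _ => isIntegral_smul_of_mem V hk (c i) (hf i)

/-- **Vanishing lemma**: an element of `E` that is integral over every finite place and vanishes
at infinity (`s⁻¹ f` integral over `Voo`) is zero.  Proof: its norm to `L` is `0` by `hK1`. -/
theorem eq_zero_of_isIntegral [FiniteDimensional L E]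
    (Vs : Set (ValuationSubring L)) (Voo : ValuationSubring L) (s : L) (hsV : s ∈ Voo)
    (hs0 : s ≠ 0)
    (hK1 : ∀ a : L, (∀ V ∈ Vs, a ∈ V) → a * s⁻¹ ∈ Voo → a = 0)
    (f : E) (hfin : ∀ V ∈ Vs, IsIntegral V f)
    (hinf : IsIntegral Voo (algebraMap L E s⁻¹ * f)) : f = 0 := by
  by_contra hf
  have hN : Algebra.norm L f ≠ 0 := Algebra.norm_ne_zero_iff.mpr hf
  apply hN
  apply hK1
  · intro V hV
    have h1 := Algebra.isIntegral_norm L (hfin V hV)
    rw [IsIntegrallyClosed.isIntegral_iff] at h1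
    obtain ⟨y, hy⟩ := h1
    rw [← hy]
    exact y.2
  · have h1 := Algebra.isIntegral_norm L hinf
    rw [map_mul, Algebra.norm_algebraMap] at h1
    rw [IsIntegrallyClosed.isIntegral_iff] at h1
    obtain ⟨y, hy⟩ := h1
    have hμ : 0 < finrank L E := finrank_pos
    obtain ⟨r, hr⟩ : ∃ r, finrank L E = r + 1 := ⟨finrank L E - 1, by omega⟩
    have hy' : s⁻¹ ^ (r + 1) * Algebra.norm L f ∈ Voo := by
      rw [← hr, ← hy]
      exact y.2
    have : Algebra.norm L f * s⁻¹ = s ^ r * (s⁻¹ ^ (r + 1) * Algebra.norm L f) := by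
      have h2 : s ^ r * s⁻¹ ^ r = 1 := by rw [← mul_pow, mul_inv_cancel₀ hs0, one_pow]
      calc Algebra.norm L f * s⁻¹ = (1 : L) * s⁻¹ * Algebra.norm L f := by ring
        _ = s ^ r * s⁻¹ ^ r * s⁻¹ * Algebra.norm L f := by rw [h2]
        _ = s ^ r * (s⁻¹ ^ (r + 1) * Algebra.norm L f) := by ring
    rw [this]
    exact Voo.mul_mem _ _ (pow_mem hsV r) hy'

variable (Voo : ValuationSubring L) (s : L) {d : ℕ} (f : Fin d → E)

/-- The filtration `U_j = {c : s⁻ʲ ∑ c_i f_i is integral over Voo}` of `k^d`. -/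
def filt (hk : ∀ c : k, algebraMap k L c ∈ Voo) (j : ℕ) : Submodule k (Fin d → k) where
  carrier := {c | IsIntegral Voo (algebraMap L E (s⁻¹ ^ j) * ∑ i, c i • f i)}
  add_mem' := by
    intro a b ha hb
    simp only [Set.mem_ofPred_eq] at ha hb ⊢
    have : algebraMap L E (s⁻¹ ^ j) * ∑ i, (a + b) i • f i
        = algebraMap L E (s⁻¹ ^ j) * ∑ i, a i • f i
          + algebraMap L E (s⁻¹ ^ j) * ∑ i, b i • f i := by
      rw [← mul_add, ← Finset.sum_add_distrib]
      simp [add_smul]
    rw [this]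
    exact ha.add hb
  zero_mem' := by
    simp only [Set.mem_ofPred_eq, Pi.zero_apply, zero_smul, Finset.sum_const_zero, mul_zero]
    exact isIntegral_zero
  smul_mem' := by
    intro c a ha
    simp only [Set.mem_ofPred_eq] at ha ⊢
    have : algebraMap L E (s⁻¹ ^ j) * ∑ i, (c • a) i • f i
        = c • (algebraMap L E (s⁻¹ ^ j) * ∑ i, a i • f i) := by
      rw [← mul_smul_comm, Finset.smul_sum]
      simp [smul_smul]
    rw [this]
    exact isIntegral_smul_of_mem Voo hk c ha

theorem mem_filt (hk : ∀ c : k, algebraMap k L c ∈ Voo) (j : ℕ) (c : Fin d → k) :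
    c ∈ filt Voo s f hk j ↔ IsIntegral Voo (algebraMap L E (s⁻¹ ^ j) * ∑ i, c i • f i) :=
  Iff.rfl

theorem filt_succ_le (hk : ∀ c : k, algebraMap k L c ∈ Voo) (hsV : s ∈ Voo) (hs0 : s ≠ 0)
    (j : ℕ) : filt Voo s f hk (j + 1) ≤ filt Voo s f hk j := by
  intro c hc
  rw [mem_filt] at hc ⊢
  have : algebraMap L E (s⁻¹ ^ j) * ∑ i, c i • f i
      = algebraMap L E s * (algebraMap L E (s⁻¹ ^ (j + 1)) * ∑ i, c i • f i) := by
    rw [← mul_assoc, ← map_mul]
    congr 2
    rw [pow_succ, ← mul_assoc, mul_comm s, mul_assoc, mul_inv_cancel₀ hs0, mul_one]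
  rw [this]
  exact (isIntegral_algebraMap_of_mem Voo hsV).mul hc

/-- The `k`-linear map `c ↦ s⁻ʲ ∑ c_i f_i`. -/
def filtMap (j : ℕ) : (Fin d → k) →ₗ[k] E :=
  (LinearMap.mulLeft k (algebraMap L E (s⁻¹ ^ j))).comp (Fintype.linearCombination k f)

omit [Algebra k L] [IsScalarTower k L E] in
theorem filtMap_apply (j : ℕ) (c : Fin d → k) :
    filtMap (k := k) s f j c = algebraMap L E (s⁻¹ ^ j) * ∑ i, c i • f i := by
  rw [filtMap, LinearMap.comp_apply, LinearMap.mulLeft_apply, Fintype.linearCombination_apply]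

theorem mem_filt' (hk : ∀ c : k, algebraMap k L c ∈ Voo) (j : ℕ) (c : Fin d → k) :
    c ∈ filt Voo s f hk j ↔ IsIntegral Voo (filtMap (k := k) s f j c) := by
  rw [filtMap_apply]
  exact Iff.rfl

omit [Algebra k L] [IsScalarTower k L E] in
theorem filtMap_succ (j : ℕ) (c : Fin d → k) :
    filtMap (k := k) s f (j + 1) c = algebraMap L E s⁻¹ * filtMap (k := k) s f j c := by
  rw [filtMap_apply, filtMap_apply, ← mul_assoc, ← map_mul, pow_succ, mul_comm (s⁻¹ ^ j)]

/-- **Filtration step**: `dim U_j / U_{j+1} ≤ [E : L]`. -/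
theorem finrank_filt_le [FiniteDimensional L E]
    (hk : ∀ c : k, algebraMap k L c ∈ Voo) (hsV : s ∈ Voo) (hs0 : s ≠ 0) (hs1 : s⁻¹ ∉ Voo)
    (hK2 : ∀ a ∈ Voo, ∃ c : k, (a - algebraMap k L c) * s⁻¹ ∈ Voo)
    (hK3 : ∀ a : L, a ≠ 0 → ∃ e : ℤ, a * s ^ e ∈ Voo ∧ (a * s ^ e)⁻¹ ∈ Voo) (j : ℕ) :
    finrank k (filt Voo s f hk j) ≤ finrank k (filt Voo s f hk (j + 1)) + finrank L E := by
  classical
  set Uj := filt Voo s f hk j with hUj
  set Uj1 := filt Voo s f hk (j + 1) with hUj1
  have hle : Uj1 ≤ Uj := filt_succ_le Voo s f hk hsV hs0 j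
  set W : Submodule k Uj := Uj1.comap Uj.subtype with hW
  have hWrank : finrank k W = finrank k Uj1 :=
    LinearEquiv.finrank_eq (Submodule.comapSubtypeEquivOfLe hle)
  obtain ⟨C, hC⟩ := Submodule.exists_isCompl W
  have hsum : finrank k W + finrank k C = finrank k Uj := Submodule.finrank_add_eq_of_isCompl hC
  suffices hCle : finrank k C ≤ finrank L E by omega
  -- a basis of the complement
  have : Module.Free k C := Module.Free.of_divisionRing k C
  let b := Module.finBasis k C
  let ι : C →ₗ[k] (Fin d → k) := Uj.subtype.comp C.subtype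
  let g : Fin (finrank k C) → E := fun l => filtMap (k := k) s f j (ι (b l))
  have hg : ∀ l, IsIntegral Voo (g l) := fun l =>
    (mem_filt' Voo s f hk j _).mp ((b l : Uj)).2
  suffices hli : LinearIndependent L g by
    simpa using hli.fintype_card_le_finrank
  rw [Fintype.linearIndependent_iff]
  intro a ha
  by_contra hne
  obtain ⟨l₀, hl₀⟩ := not_forall.mp hne
  -- exponents normalising the nonzero coefficients
  choose! e he using hK3
  let S : Finset (Fin (finrank k C)) := Finset.univ.filter fun l => a l ≠ 0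
  have hS : S.Nonempty := ⟨l₀, by simp [S, hl₀]⟩
  obtain ⟨m, hmS, hmax⟩ := Finset.exists_max_image S (fun l => e (a l)) hS
  have ham : a m ≠ 0 := by simpa [S] using hmS
  let a' : Fin (finrank k C) → L := fun l => a l * s ^ (e (a m))
  have ha'mem : ∀ l, a' l ∈ Voo := by
    intro l
    by_cases hl : a l = 0
    · simp [a', hl, Voo.zero_mem]
    · have hlS : l ∈ S := by simp [S, hl]
      have h1 := hmax l hlS
      obtain ⟨t, ht⟩ := Int.eq_ofNat_of_zero_le (sub_nonneg.mpr h1)
      have : a' l = a l * s ^ (e (a l)) * s ^ t := by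
        simp only [a']
        rw [mul_assoc, ← zpow_natCast, ← zpow_add₀ hs0, ← ht]
        congr 2
        ring
      rw [this]
      exact Voo.mul_mem _ _ (he (a l) hl).1 (pow_mem hsV t)
  have ha'unit : (a' m)⁻¹ ∈ Voo := (he (a m) ham).2
  have hsum0 : ∑ l, a' l • g l = 0 := by
    have : ∑ l, a' l • g l = s ^ (e (a m)) • ∑ l, a l • g l := by
      rw [Finset.smul_sum]
      refine Finset.sum_congr rfl fun l _ => ?_
      simp only [a', smul_smul]
      rw [mul_comm]
    rw [this, ha, smul_zero]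
  -- residues
  choose c hc using fun l => hK2 (a' l) (ha'mem l)
  have hcm : c m ≠ 0 := by
    intro h0
    have h1 := hc m
    rw [h0, map_zero, sub_zero] at h1
    apply hs1
    have : s⁻¹ = (a' m)⁻¹ * (a' m * s⁻¹) := by
      rw [← mul_assoc, inv_mul_cancel₀, one_mul]
      intro h2
      simp only [a', mul_eq_zero] at h2
      rcases h2 with h2 | h2
      · exact ham h2
      · exact zpow_ne_zero _ hs0 h2
    rw [this]
    exact Voo.mul_mem _ _ ha'unit h1
  -- the combination `w = ∑ c_l b_l` lies in `U_{j+1}`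
  let w : C := ∑ l, c l • b l
  have hw : filtMap (k := k) s f j (ι w) = ∑ l, c l • g l := by
    simp only [w, map_sum, map_smul, g]
  have hkey : ∑ l, c l • g l
      = - (algebraMap L E s * ∑ l, algebraMap L E ((a' l - algebraMap k L (c l)) * s⁻¹) * g l) := by
    have h1 : ∀ l, a' l • g l = c l • g l
        + algebraMap L E s * (algebraMap L E ((a' l - algebraMap k L (c l)) * s⁻¹) * g l) := by
      intro l
      rw [← mul_assoc, ← map_mul, Algebra.smul_def, Algebra.smul_def,
        IsScalarTower.algebraMap_apply k L E, ← add_mul, ← map_add]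
      congr 2
      field_simp
      ring
    have h2 : ∑ l, a' l • g l = ∑ l, c l • g l
        + algebraMap L E s * ∑ l, algebraMap L E ((a' l - algebraMap k L (c l)) * s⁻¹) * g l := by
      rw [Finset.mul_sum, ← Finset.sum_add_distrib]
      exact Finset.sum_congr rfl fun l _ => h1 l
    rw [hsum0] at h2
    exact eq_neg_of_add_eq_zero_left h2.symm
  have hwmem : (ι w) ∈ Uj1 := by
    rw [hUj1, mem_filt', filtMap_succ s f, hw, hkey, mul_neg, ← mul_assoc, ← map_mul,
      inv_mul_cancel₀ hs0, map_one, one_mul]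
    exact (IsIntegral.sum _ fun l _ =>
      (isIntegral_algebraMap_of_mem Voo (hc l)).mul (hg l)).neg
  have hwW : (w : Uj) ∈ W := hwmem
  have hw0 : (w : Uj) = 0 := by
    have := hC.disjoint
    rw [Submodule.disjoint_def] at this
    exact this _ hwW w.2
  have hw0' : w = 0 := Subtype.ext hw0
  have hcz : ∀ l, c l = 0 := by
    intro l
    have h1 : ⇑(b.repr w) = c := b.repr_sum_self c
    rw [hw0', map_zero] at h1
    rw [← h1]
    rfl
  exact hcm (hcz m)

/-- **Bottom of the filtration**: `U_{n+1} = 0` for the family `sⁿ f₀` when `f₀` is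
`k`-independent and integral over all finite places. -/
theorem filt_eq_bot [FiniteDimensional L E] (Vs : Set (ValuationSubring L))
    (hk : ∀ c : k, algebraMap k L c ∈ Voo)
    (hkV : ∀ V ∈ Vs, ∀ c : k, algebraMap k L c ∈ V) (hsV : s ∈ Voo) (hs0 : s ≠ 0)
    (hK1 : ∀ a : L, (∀ V ∈ Vs, a ∈ V) → a * s⁻¹ ∈ Voo → a = 0)
    (n : ℕ) (f₀ : Fin d → E) (hli : LinearIndependent k f₀)
    (hfin : ∀ i, ∀ V ∈ Vs, IsIntegral V (f₀ i)) :
    filt Voo s (fun i => algebraMap L E (s ^ n) * f₀ i) hk (n + 1) = ⊥ := by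
  rw [eq_bot_iff]
  intro c hc
  rw [mem_filt] at hc
  have h1 : algebraMap L E (s⁻¹ ^ (n + 1)) * ∑ i, c i • (algebraMap L E (s ^ n) * f₀ i)
      = algebraMap L E s⁻¹ * ∑ i, c i • f₀ i := by
    have h2 : ∑ i, c i • (algebraMap L E (s ^ n) * f₀ i)
        = algebraMap L E (s ^ n) * ∑ i, c i • f₀ i := by
      rw [Finset.mul_sum]
      exact Finset.sum_congr rfl fun i _ => (mul_smul_comm _ _ _).symm
    rw [h2, ← mul_assoc, ← map_mul]
    congr 2
    rw [pow_succ, mul_assoc, mul_comm s⁻¹, ← mul_assoc, ← mul_pow, inv_mul_cancel₀ hs0, one_pow,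
      one_mul]
  rw [h1] at hc
  have h0 := eq_zero_of_isIntegral Vs Voo s hsV hs0 hK1 (∑ i, c i • f₀ i)
    (fun V hV => isIntegral_sum_smul V (hkV V hV) c f₀ fun i => hfin i V hV) hc
  rw [Fintype.linearIndependent_iff] at hli
  rw [Submodule.mem_bot]
  funext i
  exact hli c h0 i

/-- **Abstract special-fibre count** (the Mathlib-only half of leaf C2). -/
theorem card_le_of_isIntegral [FiniteDimensional L E] (Vs : Set (ValuationSubring L))
    (hsV : s ∈ Voo) (hs0 : s ≠ 0) (hs1 : s⁻¹ ∉ Voo)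
    (hk : ∀ c : k, algebraMap k L c ∈ Voo)
    (hkV : ∀ V ∈ Vs, ∀ c : k, algebraMap k L c ∈ V)
    (hK1 : ∀ a : L, (∀ V ∈ Vs, a ∈ V) → a * s⁻¹ ∈ Voo → a = 0)
    (hK2 : ∀ a ∈ Voo, ∃ c : k, (a - algebraMap k L c) * s⁻¹ ∈ Voo)
    (hK3 : ∀ a : L, a ≠ 0 → ∃ e : ℤ, a * s ^ e ∈ Voo ∧ (a * s ^ e)⁻¹ ∈ Voo)
    (n : ℕ) (f₀ : Fin d → E) (hli : LinearIndependent k f₀)
    (hfin : ∀ i, ∀ V ∈ Vs, IsIntegral V (f₀ i))
    (hinf : ∀ i, IsIntegral Voo (algebraMap L E (s ^ n) * f₀ i)) :
    d ≤ (n + 1) * finrank L E := by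
  set F : Fin d → E := fun i => algebraMap L E (s ^ n) * f₀ i with hF
  have hstep : ∀ i : ℕ, finrank k (filt Voo s F hk 0)
      ≤ finrank k (filt Voo s F hk i) + i * finrank L E := by
    intro i
    induction i with
    | zero => simp
    | succ i ih =>
      have := finrank_filt_le Voo s F hk hsV hs0 hs1 hK2 hK3 i
      calc finrank k (filt Voo s F hk 0) ≤ finrank k (filt Voo s F hk i) + i * finrank L E := ih
        _ ≤ finrank k (filt Voo s F hk (i + 1)) + finrank L E + i * finrank L E := by omega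
        _ = finrank k (filt Voo s F hk (i + 1)) + (i + 1) * finrank L E := by ring
  have htop : filt Voo s F hk 0 = ⊤ := by
    rw [eq_top_iff]
    intro c _
    rw [mem_filt]
    simp only [pow_zero, map_one, one_mul]
    exact isIntegral_sum_smul Voo hk c F hinf
  have hbot : filt Voo s F hk (n + 1) = ⊥ :=
    filt_eq_bot Voo s Vs hk hkV hsV hs0 hK1 n f₀ hli hfin
  have h := hstep (n + 1)
  rw [htop, hbot, finrank_top, finrank_bot, Module.finrank_fin_fun, zero_add] at h
  exact h

end Count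

end Fermat.Agent.S18.H79
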