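/-
S18 / wave 4 (helper79): the abstract special-fibre count `card_le_of_isIntegral` (Count.lean)
instantiated for `L = k(X)` (`RatFunc k`) with Mathlib's adic valuations at the height-one primes
of `k[X]` and the valuation at infinity.

EXACT COUNT: `E / k(X)` finite; a `k`-linearly independent family of elements of `E`, integral
over every finite place and with poles of order `≤ n` at infinity, has at most
`(n + 1) [E : k(X)]` members.  No separability / trace-form hypothesis.
-/
import Fermat.Agent.S18.H79.Count

set_option autoImplicit false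

open Module Polynomial IsDedekindDomain

namespace Fermat.Agent.S18.H79

section RatFuncCount

variable (k : Type*) [Field k]

/-- The valuation subring of `k(X)` at a height-one prime of `k[X]`. -/
noncomputable abbrev VFin (v : HeightOneSpectrum k[X]) : ValuationSubring (RatFunc k) :=
  (v.valuation (RatFunc k)).valuationSubring

theorem algebraMap_mem_VFin (v : HeightOneSpectrum k[X]) (c : k) :
    algebraMap k (RatFunc k) c ∈ VFin k v := by
  rw [Valuation.mem_valuationSubring_iff, RatFunc.algebraMap_eq_C, ← RatFunc.algebraMap_C]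
  exact v.valuation_le_one _

variable [DecidableEq (RatFunc k)]

/-- The valuation subring of `k(X)` at infinity. -/
noncomputable abbrev VInf : ValuationSubring (RatFunc k) :=
  (RatFunc.inftyValuation k).valuationSubring

theorem mem_VInf_iff (x : RatFunc k) : x ∈ VInf k ↔ x = 0 ∨ x.intDegree ≤ 0 := by
  rw [Valuation.mem_valuationSubring_iff, RatFunc.inftyValuation_apply]
  by_cases hx : x = 0
  · simp [hx, RatFunc.inftyValuationDef]
  · rw [RatFunc.inftyValuation_of_nonzero k hx, ← WithZero.exp_zero, WithZero.exp_le_exp]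
    simp [hx]

theorem X_inv_mem_VInf : (RatFunc.X : RatFunc k)⁻¹ ∈ VInf k := by
  rw [mem_VInf_iff]
  right
  rw [RatFunc.intDegree_inv, RatFunc.intDegree_X]
  norm_num

theorem X_notMem_VInf : (RatFunc.X : RatFunc k) ∉ VInf k := by
  rw [mem_VInf_iff]
  rintro (h | h)
  · exact RatFunc.X_ne_zero h
  · rw [RatFunc.intDegree_X] at h
    norm_num at h

theorem algebraMap_mem_VInf (c : k) : algebraMap k (RatFunc k) c ∈ VInf k := by
  rw [mem_VInf_iff, RatFunc.algebraMap_eq_C]
  right
  rw [RatFunc.intDegree_C]

/-- (K1) an element of `k(X)` that is integral at all finite places and vanishes at infinity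
is zero. -/
theorem eq_zero_of_mem_VFin_of_mem_VInf (a : RatFunc k)
    (hfin : ∀ V ∈ Set.range (VFin k), a ∈ V) (hinf : a * (RatFunc.X : RatFunc k)⁻¹⁻¹ ∈ VInf k) :
    a = 0 := by
  rw [inv_inv] at hinf
  obtain ⟨p, rfl⟩ := HeightOneSpectrum.mem_integers_of_valuation_le_one (RatFunc k) a
    (fun v => hfin _ ⟨v, rfl⟩)
  by_contra hp
  have hp0 : p ≠ 0 := by
    rintro rfl
    exact hp (map_zero _)
  rw [mem_VInf_iff] at hinf
  rcases hinf with h | h
  · rcases mul_eq_zero.mp h with h | h
    · exact hp h
    · exact RatFunc.X_ne_zero h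
  · rw [RatFunc.intDegree_mul hp RatFunc.X_ne_zero, RatFunc.intDegree_X] at h
    have : (algebraMap k[X] (RatFunc k) p).intDegree = p.natDegree :=
      RatFunc.intDegree_polynomial
    rw [this] at h
    omega

/-- (K2) the residue field of the place at infinity is `k`. -/
theorem exists_sub_mul_X_mem_VInf (a : RatFunc k) (ha : a ∈ VInf k) :
    ∃ c : k, (a - algebraMap k (RatFunc k) c) * (RatFunc.X : RatFunc k)⁻¹⁻¹ ∈ VInf k := by
  simp only [inv_inv]
  rw [mem_VInf_iff] at ha
  rcases ha with rfl | ha
  · exact ⟨0, by simp [(VInf k).zero_mem]⟩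
  by_cases ha0 : a = 0
  · subst ha0
    exact ⟨0, by simp [(VInf k).zero_mem]⟩
  rcases lt_or_eq_of_le ha with hlt | heq
  · refine ⟨0, ?_⟩
    rw [map_zero, sub_zero, mem_VInf_iff]
    right
    rw [RatFunc.intDegree_mul ha0 RatFunc.X_ne_zero, RatFunc.intDegree_X]
    omega
  · -- degree zero: subtract the leading coefficient
    have hnum : a.num ≠ 0 := RatFunc.num_ne_zero ha0
    have hden : a.denom ≠ 0 := a.denom_ne_zero
    have hdeg : a.num.natDegree = a.denom.natDegree := by
      have := heq
      rw [RatFunc.intDegree] at this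
      omega
    set c := a.num.leadingCoeff with hc
    refine ⟨c, ?_⟩
    set p' := a.num - Polynomial.C c * a.denom with hp'
    have hdenA : algebraMap k[X] (RatFunc k) a.denom ≠ 0 := by
      simpa using hden
    have hrepr : a - algebraMap k (RatFunc k) c
        = algebraMap k[X] (RatFunc k) p' / algebraMap k[X] (RatFunc k) a.denom := by
      rw [hp', map_sub, map_mul, sub_div, mul_div_assoc, div_self hdenA, mul_one,
        RatFunc.num_div_denom, RatFunc.algebraMap_eq_C, RatFunc.algebraMap_C]
    by_cases hp0 : p' = 0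
    · rw [hrepr, hp0, map_zero, zero_div, zero_mul]
      exact (VInf k).zero_mem
    · have hlt : p'.natDegree < a.denom.natDegree := by
        have hd : a.num.degree = (Polynomial.C c * a.denom).degree := by
          rw [Polynomial.degree_C_mul (by rw [hc]; exact Polynomial.leadingCoeff_ne_zero.mpr hnum),
            Polynomial.degree_eq_natDegree hnum, Polynomial.degree_eq_natDegree hden, hdeg]
        have hl : a.num.leadingCoeff = (Polynomial.C c * a.denom).leadingCoeff := by
          rw [Polynomial.leadingCoeff_mul, Polynomial.leadingCoeff_C, a.monic_denom.leadingCoeff,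
            mul_one]
        have := Polynomial.degree_sub_lt_left hd hnum hl
        rw [← hp', Polynomial.degree_eq_natDegree hp0, Polynomial.degree_eq_natDegree hnum,
          hdeg] at this
        exact_mod_cast this
      have hp'A : algebraMap k[X] (RatFunc k) p' ≠ 0 := by
        simpa using hp0
      rw [mem_VInf_iff]
      right
      rw [hrepr, RatFunc.intDegree_mul (div_ne_zero hp'A hdenA) RatFunc.X_ne_zero,
        RatFunc.intDegree_div hp'A hdenA, RatFunc.intDegree_polynomial,
        RatFunc.intDegree_polynomial, RatFunc.intDegree_X]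
      omega

/-- (K3) `X⁻¹` is a uniformiser at infinity. -/
theorem exists_zpow_unit_VInf (a : RatFunc k) (ha : a ≠ 0) :
    ∃ e : ℤ, a * (RatFunc.X : RatFunc k)⁻¹ ^ e ∈ VInf k ∧
      (a * (RatFunc.X : RatFunc k)⁻¹ ^ e)⁻¹ ∈ VInf k := by
  refine ⟨a.intDegree, ?_⟩
  have hX : ((RatFunc.X : RatFunc k)⁻¹ ^ a.intDegree) ≠ 0 :=
    zpow_ne_zero _ (inv_ne_zero RatFunc.X_ne_zero)
  have hdeg : (a * (RatFunc.X : RatFunc k)⁻¹ ^ a.intDegree).intDegree = 0 := by
    rw [RatFunc.intDegree_mul ha hX]
    have : ((RatFunc.X : RatFunc k)⁻¹ ^ a.intDegree).intDegree = - a.intDegree := by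
      rw [inv_zpow, RatFunc.intDegree_inv]
      congr 1
      have h := RatFunc.inftyValuation.X_zpow (F := k) a.intDegree
      rw [RatFunc.inftyValuation_apply,
        RatFunc.inftyValuation_of_nonzero k (zpow_ne_zero _ RatFunc.X_ne_zero)] at h
      exact WithZero.exp_injective h
    rw [this]
    ring
  constructor
  · rw [mem_VInf_iff]
    right
    rw [hdeg]
  · rw [mem_VInf_iff]
    right
    rw [RatFunc.intDegree_inv, hdeg]
    norm_num

/-- **Exact special-fibre count over `k(X)`.** -/
theorem card_le_of_isIntegral_ratFunc {E : Type*} [Field E] [Algebra (RatFunc k) E] [Algebra k E]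
    [IsScalarTower k (RatFunc k) E] [FiniteDimensional (RatFunc k) E]
    (n d : ℕ) (g : Fin d → E) (hli : LinearIndependent k g)
    (hfin : ∀ i, ∀ v : HeightOneSpectrum k[X], IsIntegral (VFin k v) (g i))
    (hinf : ∀ i, IsIntegral (VInf k)
      (algebraMap (RatFunc k) E ((RatFunc.X : RatFunc k)⁻¹ ^ n) * g i)) :
    d ≤ (n + 1) * finrank (RatFunc k) E := by
  refine card_le_of_isIntegral (VInf k) ((RatFunc.X : RatFunc k)⁻¹) (Set.range (VFin k))
    (X_inv_mem_VInf k) (inv_ne_zero RatFunc.X_ne_zero) ?_ (algebraMap_mem_VInf k) ?_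
    (eq_zero_of_mem_VFin_of_mem_VInf k) (exists_sub_mul_X_mem_VInf k) (exists_zpow_unit_VInf k)
    n g hli ?_ hinf
  · rw [inv_inv]
    exact X_notMem_VInf k
  · rintro V ⟨v, rfl⟩ c
    exact algebraMap_mem_VFin k v c
  · rintro i V ⟨v, rfl⟩
    exact hfin i v

end RatFuncCount

end Fermat.Agent.S18.H79
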